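import Mathlib

/-!
# Hurwitz's approximation theorem

Every irrational number `ξ` has infinitely many rational approximations `q` with
`|ξ - q| < 1 / (√5 den(q) ^ 2)` (Hurwitz 1891), and `√5` is the best possible constant: for every
`A > √5` the golden ratio has only finitely many approximations with
`|φ - q| < 1 / (A den(q) ^ 2)`. Together: `hurwitz_iff`.

Of two Farey neighbours `a / b < ξ < c / d` and their mediant at least one is good
(`exists_of_neighbours`).
-/

namespace Fermat.Agent.Cor.HurApp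

/-- The arithmetical core. -/
theorem core {m n : ℕ} (hm : 0 < m) (h1 : (m : ℝ) ^ 2 + n ^ 2 ≤ √5 * (m * n))
    (h2 : (m : ℝ) ^ 2 + (m + n) ^ 2 ≤ √5 * (m * (m + n))) : False := by
  have h5 : √5 ^ 2 = (5 : ℝ) := Real.sq_sqrt (by norm_num)
  have h3 : ((√5 - 1) * m - 2 * n) ^ 2 ≤ 0 := by
    have : ((√5 - 1) * m - 2 * n) ^ 2 =
        2 * ((m : ℝ) ^ 2 + n ^ 2 - √5 * (m * n)) + 2 * ((m : ℝ) ^ 2 + (m + n) ^ 2 -
          √5 * (m * (m + n))) + (√5 ^ 2 - 5) * m ^ 2 := by ring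
    rw [this, h5]
    linarith
  have h4 : (√5 - 1) * m - 2 * n = 0 := pow_eq_zero_iff two_ne_zero |>.1
    (le_antisymm h3 (sq_nonneg _))
  have hm' : (m : ℝ) ≠ 0 := by exact_mod_cast hm.ne'
  have hirr : Irrational (√5) := by
    have := Nat.Prime.irrational_sqrt (p := 5) (by norm_num)
    exact_mod_cast this
  apply hirr
  refine ⟨(2 * n + m) / m, ?_⟩
  push_cast
  rw [div_eq_iff hm']
  linarith

/-- `p / k` is a good approximation if it is good with `k` instead of the denominator. -/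
theorem good_of {A ξ : ℝ} (hA : 0 < A) {p : ℤ} {k : ℕ} (hk : 0 < k)
    (h : |ξ - p / k| < 1 / (A * k ^ 2)) :
    |ξ - ((p / k : ℚ) : ℝ)| < 1 / (A * ((p / k : ℚ).den : ℝ) ^ 2) := by
  have hd : (p / k : ℚ).den ≤ k := by
    have h1 := Rat.den_dvd p k
    have h2 : (p / k : ℚ).den ∣ k := by exact_mod_cast h1
    exact Nat.le_of_dvd hk h2
  have hd0 : (0 : ℝ) < ((p / k : ℚ).den : ℝ) := by exact_mod_cast (p / k : ℚ).den_pos
  have hd' : ((p / k : ℚ).den : ℝ) ≤ k := by exact_mod_cast hd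
  push_cast
  refine h.trans_le ?_
  have : ((p / k : ℚ).den : ℝ) ^ 2 ≤ (k : ℝ) ^ 2 := pow_le_pow_left₀ hd0.le hd' 2
  exact one_div_le_one_div_of_le (by positivity) (mul_le_mul_of_nonneg_left this hA.le)

/-- Of two Farey neighbours around `ξ` and their mediant one is a good approximation. -/
theorem exists_of_neighbours {ξ : ℝ} (hξ : Irrational ξ) {a c : ℤ} {b d : ℕ} (hb : 0 < b)
    (hd : 0 < d) (h : c * b - a * d = 1) (h1 : (a : ℝ) / b < ξ) (h2 : ξ < (c : ℝ) / d) :
    ∃ q : ℚ, |ξ - q| < 1 / (√5 * (q.den : ℝ) ^ 2) ∧ |ξ - q| < 1 / (b * d) := by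
  have hb' : (0 : ℝ) < b := by exact_mod_cast hb
  have hd' : (0 : ℝ) < d := by exact_mod_cast hd
  have h5 : (0 : ℝ) < √5 := by positivity
  have h' : (c : ℝ) * b - a * d = 1 := by exact_mod_cast h
  have hdiff : (c : ℝ) / d - a / b = 1 / (b * d) := by
    field_simp
    linarith
  -- the mediant
  have hm1 : ((a + c : ℤ) : ℝ) / ((b + d : ℕ) : ℝ) - a / b = 1 / (b * (b + d)) := by
    push_cast
    field_simp
    linarith
  have hm2 : (c : ℝ) / d - ((a + c : ℤ) : ℝ) / ((b + d : ℕ) : ℝ) = 1 / (d * (b + d)) := by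
    push_cast
    field_simp
    linarith
  have p1 : (0 : ℝ) < 1 / (b * (b + d)) := by positivity
  have p2 : (0 : ℝ) < 1 / (d * (b + d)) := by positivity
  by_contra hno
  push Not at hno
  have g1 : 1 / (√5 * (b : ℝ) ^ 2) ≤ ξ - a / b := by
    by_contra hlt
    push Not at hlt
    have h3 : |ξ - a / b| < 1 / (√5 * (b : ℝ) ^ 2) := by rwa [abs_of_pos (by linarith)]
    have h4 := hno _ (good_of h5 hb h3)
    push_cast at h4
    rw [abs_of_pos (by linarith), ← hdiff] at h4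
    linarith
  have g2 : 1 / (√5 * (d : ℝ) ^ 2) ≤ c / d - ξ := by
    by_contra hlt
    push Not at hlt
    have h3 : |ξ - c / d| < 1 / (√5 * (d : ℝ) ^ 2) := by
      rw [abs_sub_comm]; rwa [abs_of_pos (by linarith)]
    have h4 := hno _ (good_of h5 hd h3)
    push_cast at h4
    rw [abs_sub_comm, abs_of_pos (by linarith), ← hdiff] at h4
    linarith
  have hbd : 0 < b + d := by omega
  have hne : ξ ≠ ((a + c : ℤ) : ℝ) / ((b + d : ℕ) : ℝ) := by
    intro h3
    apply hξ
    exact ⟨((a + c : ℤ) : ℚ) / ((b + d : ℕ) : ℚ), by rw [h3]; push_cast; rfl⟩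
  have g3 : 1 / (√5 * ((b + d : ℕ) : ℝ) ^ 2) ≤ |ξ - ((a + c : ℤ) : ℝ) / ((b + d : ℕ) : ℝ)| := by
    by_contra hlt
    push Not at hlt
    have h4 := hno _ (good_of h5 hbd hlt)
    have h6 : |ξ - ((((a + c : ℤ) : ℚ) / ((b + d : ℕ) : ℚ) : ℚ) : ℝ)| =
        |ξ - ((a + c : ℤ) : ℝ) / ((b + d : ℕ) : ℝ)| := by push_cast; rfl
    rw [h6, ← hdiff] at h4
    rcases lt_or_gt_of_ne hne with h7 | h7
    · rw [abs_sub_comm, abs_of_pos (by linarith)] at h4
      linarith
    · rw [abs_of_pos (by linarith)] at h4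
      linarith
  have e1 : (d : ℝ) ^ 2 + b ^ 2 ≤ √5 * (d * b) := by
    have h3 : 1 / (√5 * (b : ℝ) ^ 2) + 1 / (√5 * (d : ℝ) ^ 2) ≤ 1 / (b * d) := by
      rw [← hdiff]; linarith
    rw [div_add_div _ _ (by positivity) (by positivity), div_le_div_iff₀ (by positivity)
      (by positivity)] at h3
    have h4 : √5 * (b * d) * ((d : ℝ) ^ 2 + b ^ 2) ≤ √5 * (b * d) * (√5 * (d * b)) := by
      linarith
    exact le_of_mul_le_mul_left h4 (by positivity)
  rcases lt_or_gt_of_ne hne with h7 | h7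
  · rw [abs_sub_comm, abs_of_pos (by linarith)] at g3
    refine core hb (m := b) (n := d) (by linarith) ?_
    have h3 : 1 / (√5 * (b : ℝ) ^ 2) + 1 / (√5 * ((b + d : ℕ) : ℝ) ^ 2) ≤ 1 / (b * (b + d)) := by
      rw [← hm1]; linarith
    push_cast at h3
    rw [div_add_div _ _ (by positivity) (by positivity), div_le_div_iff₀ (by positivity)
      (by positivity)] at h3
    have h4 : √5 * (b * (b + d)) * ((b : ℝ) ^ 2 + (b + d) ^ 2) ≤
        √5 * (b * (b + d)) * (√5 * (b * (b + d))) := by linarith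
    exact le_of_mul_le_mul_left h4 (by positivity)
  · rw [abs_of_pos (by linarith)] at g3
    refine core hd (m := d) (n := b) e1 ?_
    have h3 : 1 / (√5 * (d : ℝ) ^ 2) + 1 / (√5 * ((b + d : ℕ) : ℝ) ^ 2) ≤ 1 / (d * (b + d)) := by
      rw [← hm2]; linarith
    push_cast at h3
    rw [div_add_div _ _ (by positivity) (by positivity), div_le_div_iff₀ (by positivity)
      (by positivity)] at h3
    have h4 : √5 * (d * (b + d)) * ((d : ℝ) ^ 2 + (d + b) ^ 2) ≤
        √5 * (d * (b + d)) * (√5 * (d * (d + b))) := by linarith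
    exact le_of_mul_le_mul_left h4 (by positivity)

/-- Farey neighbours around `ξ` with large denominators. -/
theorem exists_neighbours {ξ : ℝ} (hξ : Irrational ξ) (N : ℕ) : ∃ (a c : ℤ) (b d : ℕ), 0 < b ∧
    0 < d ∧ c * b - a * d = 1 ∧ (a : ℝ) / b < ξ ∧ ξ < (c : ℝ) / d ∧ N ≤ b + d := by
  induction N with
  | zero =>
    refine ⟨⌊ξ⌋, ⌊ξ⌋ + 1, 1, 1, one_pos, one_pos, by push_cast; ring, ?_, ?_, by omega⟩
    · have h1 := Int.floor_le ξ
      have h2 : (⌊ξ⌋ : ℝ) ≠ ξ := fun h => hξ ⟨(⌊ξ⌋ : ℚ), by push_cast; exact h⟩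
      have h3 := lt_of_le_of_ne h1 h2
      simpa using h3
    · push_cast
      simp
  | succ N ih =>
    obtain ⟨a, c, b, d, hb, hd, h, h1, h2, hN⟩ := ih
    have hne : ξ ≠ ((a + c : ℤ) : ℝ) / ((b + d : ℕ) : ℝ) := by
      intro h3
      apply hξ
      exact ⟨((a + c : ℤ) : ℚ) / ((b + d : ℕ) : ℚ), by rw [h3]; push_cast; rfl⟩
    rcases lt_or_gt_of_ne hne with h7 | h7
    · refine ⟨a, a + c, b, b + d, hb, by omega, by push_cast; linarith, h1, h7, by omega⟩
    · refine ⟨a + c, c, b + d, d, by omega, hd, by push_cast; linarith, h7, h2, by omega⟩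

/-- **Hurwitz's theorem** (1891): every irrational number has infinitely many rational
approximations `q` with `|ξ - q| < 1 / (√5 den(q) ^ 2)`. -/
theorem hurwitz {ξ : ℝ} (hξ : Irrational ξ) :
    {q : ℚ | |ξ - q| < 1 / (√5 * (q.den : ℝ) ^ 2)}.Infinite := by
  intro hfin
  -- a lower bound for the distances
  obtain ⟨ε, hε, hlow⟩ : ∃ ε : ℝ, 0 < ε ∧
      ∀ q ∈ {q : ℚ | |ξ - q| < 1 / (√5 * (q.den : ℝ) ^ 2)}, ε ≤ |ξ - q| := by
    rcases Set.eq_empty_or_nonempty {q : ℚ | |ξ - q| < 1 / (√5 * (q.den : ℝ) ^ 2)} with h | h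
    · exact ⟨1, one_pos, fun q hq => by rw [h] at hq; exact absurd hq (Set.notMem_empty q)⟩
    · obtain ⟨q₀, hq₀, hmin⟩ := Set.exists_min_image _ (fun q : ℚ => |ξ - q|) hfin h
      refine ⟨|ξ - q₀|, ?_, hmin⟩
      exact abs_pos.2 (sub_ne_zero.2 fun h0 => hξ ⟨q₀, h0.symm⟩)
  obtain ⟨N, hN⟩ := exists_nat_gt (1 / ε)
  obtain ⟨a, c, b, d, hb, hd, h, h1, h2, hNbd⟩ := exists_neighbours hξ (N + 1)
  obtain ⟨q, hq, hq2⟩ := exists_of_neighbours hξ hb hd h h1 h2
  have h3 := hlow q hq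
  have hb' : (0 : ℝ) < b := by exact_mod_cast hb
  have hd' : (0 : ℝ) < d := by exact_mod_cast hd
  have h4 : N ≤ b * d := by
    obtain ⟨x, rfl⟩ : ∃ x, b = x + 1 := ⟨b - 1, by omega⟩
    obtain ⟨y, rfl⟩ : ∃ y, d = y + 1 := ⟨d - 1, by omega⟩
    nlinarith [Nat.zero_le (x * y)]
  have h5 : (N : ℝ) ≤ b * d := by exact_mod_cast h4
  have h6 : 1 / ε < b * d := hN.trans_le h5
  have h7 : 1 / ((b : ℝ) * d) < ε := by
    rw [one_div_lt (by positivity) hε]
    exact h6
  linarith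

/-- The constant `√5` cannot be improved: for `A > √5` the golden ratio has only finitely many
approximations with `|φ - q| < 1 / (A den(q) ^ 2)`. -/
theorem finite_goldenRatio {A : ℝ} (hA : √5 < A) :
    {q : ℚ | |Real.goldenRatio - q| < 1 / (A * (q.den : ℝ) ^ 2)}.Finite := by
  have h5 : √5 ^ 2 = (5 : ℝ) := Real.sq_sqrt (by norm_num)
  have h50 : (0 : ℝ) < √5 := by positivity
  have h51 : (1 : ℝ) < √5 := by nlinarith
  have h53 : √5 < 3 := by nlinarith
  obtain ⟨K, hK⟩ := exists_nat_gt (1 / (A * (A - √5)))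
  have hA1 : 1 < A := by linarith
  have hA0 : 0 < A - √5 := by linarith
  have key : ∀ q : ℚ, |Real.goldenRatio - q| < 1 / (A * (q.den : ℝ) ^ 2) →
      q.den ≤ K ∧ |(q.num : ℝ)| ≤ 4 * K := by
    intro q hq
    have hk : (1 : ℝ) ≤ q.den := by exact_mod_cast q.den_pos
    have hk2 : (1 : ℝ) ≤ (q.den : ℝ) ^ 2 := one_le_pow₀ hk
    have hφ : Real.goldenRatio = (1 + √5) / 2 := rfl
    have hq' : (q : ℝ) = q.num / q.den := by exact_mod_cast (Rat.num_div_den q).symm
    have hqd : (q : ℝ) * q.den = q.num := by rw [hq']; field_simp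
    set δ := |Real.goldenRatio - q| with hδ
    have hδ0 : 0 ≤ δ := abs_nonneg _
    have hδ1 : δ < 1 := by
      refine hq.trans_le ?_
      rw [div_le_one (by positivity)]
      nlinarith
    -- the integer `p² - p k - k²`
    have hne : q.num ^ 2 - q.num * q.den - (q.den : ℤ) ^ 2 ≠ 0 := by
      intro h0
      have h1 : ((q.num : ℝ)) ^ 2 - q.num * q.den - (q.den : ℝ) ^ 2 = 0 := by exact_mod_cast h0
      rw [← hqd] at h1
      have h2 : ((q : ℝ) - (1 + √5) / 2) * ((q : ℝ) - (1 - √5) / 2) = 0 := by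
        have h3 : ((q : ℝ) ^ 2 - q - 1) * (q.den : ℝ) ^ 2 = 0 := by linarith
        have h4 := (mul_eq_zero.1 h3).resolve_right (by positivity)
        have h6 : ((q : ℝ) - (1 + √5) / 2) * ((q : ℝ) - (1 - √5) / 2) =
            (q : ℝ) ^ 2 - q - 1 + (5 - √5 ^ 2) / 4 := by ring
        rw [h6, h4, h5]
        norm_num
      rcases mul_eq_zero.1 h2 with h3 | h3
      · exact Real.goldenRatio_irrational ⟨q, by rw [hφ]; linarith⟩
      · exact Real.goldenConj_irrational ⟨q, by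
          rw [show Real.goldenConj = (1 - √5) / 2 from rfl]; linarith⟩
    have hge : (1 : ℝ) ≤ |(q.num : ℝ) ^ 2 - q.num * q.den - (q.den : ℝ) ^ 2| := by
      have := Int.one_le_abs hne
      exact_mod_cast this
    have hfac : (q.num : ℝ) ^ 2 - q.num * q.den - (q.den : ℝ) ^ 2 =
        (q.den : ℝ) ^ 2 * ((Real.goldenRatio - q) * ((Real.goldenRatio - q) - √5)) := by
      rw [← hqd, hφ]
      have : ((1 + √5) / 2 - (q : ℝ)) * ((1 + √5) / 2 - q - √5) =
        (q : ℝ) ^ 2 - q - 1 + (5 - √5 ^ 2) / 4 := by ring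
      rw [this, h5]
      ring
    rw [hfac, abs_mul, abs_mul, abs_of_nonneg (by positivity : (0 : ℝ) ≤ (q.den : ℝ) ^ 2), ← hδ]
      at hge
    have h6 : |Real.goldenRatio - q - √5| ≤ δ + √5 := by
      refine (abs_sub _ _).trans ?_
      rw [abs_of_pos h50]
    have h7 : (q.den : ℝ) ^ 2 * (δ * |Real.goldenRatio - q - √5|) ≤
        (q.den : ℝ) ^ 2 * (δ * (δ + √5)) := by gcongr
    have h8 : (q.den : ℝ) ^ 2 * δ < 1 / A := by
      rw [lt_div_iff₀ (by linarith)]
      rw [lt_div_iff₀ (by positivity)] at hq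
      linarith
    have h9 : (1 : ℝ) < 1 / A * (δ + √5) := by
      refine lt_of_le_of_lt (hge.trans h7) ?_
      rw [← mul_assoc]
      exact mul_lt_mul_of_pos_right h8 (by linarith)
    have h10 : A < δ + √5 := by
      rw [one_div, ← div_eq_inv_mul, lt_div_iff₀ (by linarith)] at h9
      linarith
    have h11 : (q.den : ℝ) ^ 2 < 1 / (A * (A - √5)) := by
      rw [lt_div_iff₀ (by positivity)]
      rw [lt_div_iff₀ (by positivity)] at hq
      have h12 : (A - √5) * (A * (q.den : ℝ) ^ 2) ≤ δ * (A * (q.den : ℝ) ^ 2) := by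
        refine mul_le_mul_of_nonneg_right (by linarith) (by positivity)
      linarith
    have h12 : (q.den : ℝ) < K := by nlinarith
    refine ⟨by exact_mod_cast h12.le, ?_⟩
    rw [← hqd, abs_mul, abs_of_nonneg (by positivity : (0 : ℝ) ≤ (q.den : ℝ))]
    have h13 : |(q : ℝ)| ≤ 4 := by
      have h14 : |(q : ℝ)| ≤ |Real.goldenRatio| + δ := by
        have := abs_sub_abs_le_abs_sub (q : ℝ) Real.goldenRatio
        rw [abs_sub_comm] at this
        linarith
      have h15 : |Real.goldenRatio| ≤ 2 := by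
        rw [hφ, abs_of_pos (by positivity)]
        linarith
      linarith
    exact mul_le_mul h13 h12.le (by positivity) (by norm_num)
  refine Set.Finite.of_injOn (f := fun q : ℚ => (q.num, q.den))
    (t := ((Finset.Icc (-(4 * K : ℤ)) (4 * K) ×ˢ Finset.range (K + 1) : Finset (ℤ × ℕ)) :
      Set (ℤ × ℕ))) ?_ ?_ (Finset.finite_toSet _)
  · intro q hq
    obtain ⟨h1, h2⟩ := key q hq
    rw [Finset.mem_coe, Finset.mem_product, Finset.mem_Icc, Finset.mem_range]
    rw [abs_le] at h2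
    exact ⟨⟨by exact_mod_cast h2.1, by exact_mod_cast h2.2⟩, Nat.lt_succ_of_le h1⟩
  · intro q _ r _ h
    rw [Prod.mk.injEq] at h
    exact Rat.ext h.1 h.2

/-- **Hurwitz's theorem with the best constant**: for `A > 0`, every irrational number has
infinitely many rational approximations with `|ξ - q| < 1 / (A den(q) ^ 2)` if and only if
`A ≤ √5`. -/
theorem hurwitz_iff {A : ℝ} (hA : 0 < A) :
    (∀ ξ : ℝ, Irrational ξ → {q : ℚ | |ξ - q| < 1 / (A * (q.den : ℝ) ^ 2)}.Infinite) ↔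
      A ≤ √5 := by
  constructor
  · intro h
    by_contra hlt
    exact h _ Real.goldenRatio_irrational (finite_goldenRatio (not_le.1 hlt))
  · intro h ξ hξ
    refine (hurwitz hξ).mono (fun q hq => ?_)
    have hk : (0 : ℝ) < q.den := by exact_mod_cast q.den_pos
    have hq' : |ξ - q| < 1 / (√5 * (q.den : ℝ) ^ 2) := hq
    refine lt_of_lt_of_le hq' ?_
    exact one_div_le_one_div_of_le (by positivity)
      (mul_le_mul_of_nonneg_right h (by positivity))

end Fermat.Agent.Cor.HurApp
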